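import Fermat.Agent.S55.Count.BrS.H125.Units
import Fermat.Agent.S14.Wiring.ValRing
import Fermat.Agent.CFT.Global.HasseNorm.Principal

/-!
# (BrS), arithmetic half: the element `Γ`

`K ≤ M` number fields inside `Qb`, `χ` a character of `G_K` with kernel `Fix M ∩ G_K`,
`σ ∈ G_K` with `χ σ = 1`, `b ∈ Kˣ` which at every valuation subring `A` of `Qb` outside `S` is
either a unit times a `p`-th power of `K`, or `χ` vanishes on `D_A ∩ G_K`.

* `exists_local_gen` : `h` = class number of `M`; for every valuation subring `A₀` over a prime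
  there is `g ∈ Mˣ` with `g / b ^ h` a unit at the valuation subrings inducing the same prime of
  `M` as `A₀` and `g` a unit at all the others.
* `exists_Gamma` : a set `Rk` of valuation subrings (those inducing one chosen prime of `M`
  above each bad prime of `K`) and `Γ ∈ Mˣ` with `Γ / b ^ h` a unit on `Rk`, `Γ` a unit off `Rk`,
  and for `A` outside `S`: either exactly one of the `σ ^ (-i) • A` (`i < p`) is in `Rk`, or no
  `G_K`-translate of `A` is in `Rk` and `b` is a unit times a `p`-th power of `K` at `A`.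
-/

set_option autoImplicit false

open scoped NumberField Pointwise nonZeroDivisors
open IsDedekindDomain

namespace Fermat.Agent.S55.Count.BrS.H125

local notation "Qb" => AlgebraicClosure ℚ
local notation "Gq" => (AlgebraicClosure ℚ ≃ₐ[ℚ] AlgebraicClosure ℚ)

open Fermat.Agent.S14.Wiring.ValRing
open Fermat.Agent.S55.Glue.PlacesAbove

/-- **Local generators from the class group.** -/
theorem exists_local_gen (M : IntermediateField ℚ Qb) [NumberField M] :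
    ∃ h : ℕ, h ≠ 0 ∧ ∀ (b : M), b ≠ 0 → ∀ (A₀ : ValuationSubring Qb) (ℓ : ℕ), ℓ.Prime →
      A₀.LiesOverPrime ℓ → ∃ g : M, g ≠ 0 ∧ ∀ A : ValuationSubring Qb,
        (primeUnder M A = primeUnder M A₀ → IsU A ((g : Qb) / (b : Qb) ^ h)) ∧
        (primeUnder M A ≠ primeUnder M A₀ → IsU A (g : Qb)) := by
  classical
  set h : ℕ := NumberField.classNumber M with hh
  have hh0 : h ≠ 0 := NumberField.classNumber_ne_zero M
  refine ⟨h, hh0, fun b hb A₀ ℓ hℓ hA₀ => ?_⟩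
  set w : HeightOneSpectrum (𝓞 M) := placeUnder M A₀ hℓ hA₀ with hw
  have hwA₀ : w.asIdeal = primeUnder M A₀ := rfl
  have hwmem : w.asIdeal ∈ (Ideal (𝓞 M))⁰ := mem_nonZeroDivisors_iff_ne_zero.mpr w.ne_bot
  have hwh : w.asIdeal ^ h ∈ (Ideal (𝓞 M))⁰ := pow_mem hwmem h
  have hprinc : (w.asIdeal ^ h).IsPrincipal := by
    rw [← ClassGroup.mk0_eq_one_iff hwh]
    have h1 : ClassGroup.mk0 (⟨w.asIdeal ^ h, hwh⟩ : (Ideal (𝓞 M))⁰) =
        ClassGroup.mk0 (⟨w.asIdeal, hwmem⟩ : (Ideal (𝓞 M))⁰) ^ h := by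
      rw [← map_pow]
      rfl
    rw [h1]
    exact pow_card_eq_one
  obtain ⟨γ, hγ⟩ := hprinc.principal
  have hγ' : w.asIdeal ^ h = Ideal.span {γ} := hγ
  have hγ0 : γ ≠ 0 := by
    rintro rfl
    rw [Set.singleton_zero, Ideal.span_zero] at hγ'
    exact (pow_ne_zero h w.ne_bot) hγ'
  have hγmem : γ ∈ w.asIdeal ^ h := by rw [hγ']; exact Ideal.mem_span_singleton_self γ
  have hγnot : γ ∉ w.asIdeal ^ (h + 1) := by
    intro hmem
    have h1 : w.asIdeal ^ h ≤ w.asIdeal ^ (h + 1) := by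
      rw [hγ', Ideal.span_le, Set.singleton_subset_iff]
      exact hmem
    exact absurd h1 (not_le_of_gt (Ideal.pow_succ_lt_pow w.ne_bot h))
  set γM : M := ((γ : 𝓞 M) : M) with hγM
  have hγM0 : γM ≠ 0 := by
    rw [hγM]
    exact_mod_cast hγ0
  have hvγ : w.valuation M γM = WithZero.exp (-(h : ℤ)) := by
    have hv0 : w.valuation M γM ≠ 0 := by
      rw [Ne, map_eq_zero]
      exact hγM0
    set k : ℤ := WithZero.log (w.valuation M γM) with hk
    have hvk : w.valuation M γM = WithZero.exp k := (WithZero.exp_log hv0).symm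
    have h1 : w.valuation M γM ≤ WithZero.exp (-(h : ℤ)) := by
      have : γM = algebraMap (𝓞 M) M γ := rfl
      rw [this, HeightOneSpectrum.valuation_of_algebraMap,
        HeightOneSpectrum.intValuation_le_pow_iff_mem]
      exact hγmem
    have h2 : ¬ w.valuation M γM ≤ WithZero.exp (-((h + 1 : ℕ) : ℤ)) := by
      have : γM = algebraMap (𝓞 M) M γ := rfl
      rw [this, HeightOneSpectrum.valuation_of_algebraMap,
        HeightOneSpectrum.intValuation_le_pow_iff_mem]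
      exact hγnot
    rw [hvk, WithZero.exp_le_exp] at h1 h2
    have hkh : k = -(h : ℤ) := by push_cast at h2; omega
    rw [hvk, hkh]
  have hvb0 : w.valuation M b ≠ 0 := by
    rw [Ne, map_eq_zero]
    exact hb
  set n : ℤ := WithZero.log (w.valuation M b) with hn
  have hvb : w.valuation M b = WithZero.exp n := (WithZero.exp_log hvb0).symm
  refine ⟨γM ^ (-n), zpow_ne_zero _ hγM0, fun A => ⟨fun hA => ?_, fun hA => ?_⟩⟩
  · have h3 : w.valuation M (γM ^ (-n) / b ^ h) = 1 := by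
      have h4 : w.valuation M (γM ^ (-n)) = w.valuation M (b ^ h) := by
        rw [map_zpow₀, map_pow, hvγ, hvb, ← WithZero.exp_zsmul, ← WithZero.exp_nsmul]
        congr 1
        simp only [smul_eq_mul, nsmul_eq_mul]
        ring
      rw [map_div₀, h4]
      exact div_self (by rw [Ne, map_eq_zero]; exact pow_ne_zero _ hb)
    exact (valuation_eq_one_iff (F := M) (A := A) (v := w) (hwA₀.trans hA.symm) _).mp h3
  · have hγA : γ ∉ primeUnder M A := by
      intro hmem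
      have h1 : w.asIdeal ^ h ≤ primeUnder M A := by
        rw [hγ', Ideal.span_le, Set.singleton_subset_iff]
        exact hmem
      have h2 : w.asIdeal ≤ primeUnder M A := Ideal.IsPrime.le_of_pow_le h1
      exact hA (w.isMaximal.eq_of_le (primeUnder_isPrime M A).ne_top h2).symm
    have h3 : IsU A ((γM : M) : Qb) := (notMem_primeUnder M A γ).mp hγA
    have h4 : ((γM ^ (-n) : M) : Qb) = ((γM : M) : Qb) ^ (-n) :=
      map_zpow₀ (algebraMap M Qb) γM (-n)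
    rw [h4]
    exact h3.zpow _

/-- **The element `Γ`.** -/
theorem exists_Gamma {p : ℕ} [Fact p.Prime] (S : Finset Nat.Primes)
    (K M : IntermediateField ℚ Qb) [NumberField K] [NumberField M] (hKM : K ≤ M)
    (χ : Gq → ZMod p)
    (hχ : ∀ g ∈ K.fixingSubgroup, ∀ h ∈ K.fixingSubgroup, χ (g * h) = χ g + χ h)
    (σ : Gq) (hσK : σ ∈ K.fixingSubgroup) (hσχ : χ σ = 1)
    (hker : ∀ τ ∈ K.fixingSubgroup, (χ τ = 0 ↔ τ ∈ M.fixingSubgroup))
    (b : K) (hb : b ≠ 0)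
    (hloc : ∀ q : Nat.Primes, q ∉ S → ∀ A : ValuationSubring Qb, A.LiesOverPrime (q : ℕ) →
      (∃ x : K, A.valuation ((b : Qb) * (x : Qb) ^ p) = 1) ∨
      (∀ s ∈ A.decompositionSubgroup ℚ, s ∈ K.fixingSubgroup → χ s = 0)) :
    ∃ (h : ℕ) (Γ : Qb) (Rk : ValuationSubring Qb → Prop), h ≠ 0 ∧ Γ ∈ M ∧ Γ ≠ 0 ∧
      (∀ A, Rk A → IsU A (Γ / (b : Qb) ^ h)) ∧ (∀ A, ¬ Rk A → IsU A Γ) ∧
      ∀ q : Nat.Primes, q ∉ S → ∀ A : ValuationSubring Qb, A.LiesOverPrime (q : ℕ) →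
        (∃ a < p, ∀ i < p, (Rk ((σ ^ i)⁻¹ • A) ↔ i = a)) ∨
        ((∀ τ ∈ K.fixingSubgroup, ¬ Rk (τ • A)) ∧
          ∃ x : K, IsU A ((b : Qb) * (x : Qb) ^ p)) := by
  classical
  have hp : p.Prime := Fact.out
  have : NeZero p := ⟨hp.ne_zero⟩
  obtain ⟨h, hh0, hgen⟩ := exists_local_gen M
  set bM : M := ⟨(b : Qb), hKM b.2⟩ with hbM
  have hbM0 : bM ≠ 0 := by
    intro h0
    apply hb
    have h1 : (b : Qb) = 0 := congrArg Subtype.val h0
    exact Subtype.ext h1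
  have hfin := Fermat.Agent.CFT.Global.HasseNorm.finite_valuation_ne_one (K := K) b hb
  set T0 : Finset (HeightOneSpectrum (𝓞 K)) :=
    hfin.toFinset.filter (fun 𝔭 => ¬ ∃ x : K, 𝔭.valuation K (b * x ^ p) = 1) with hT0
  have hex : ∀ 𝔭 : HeightOneSpectrum (𝓞 K), ∃ (ℓ : ℕ) (A : ValuationSubring Qb), ℓ.Prime ∧
      ((ℓ : ℕ) : 𝓞 K) ∈ 𝔭.asIdeal ∧ A.LiesOverPrime ℓ ∧ 𝔭.asIdeal = primeUnder K A :=
    fun 𝔭 => exists_valuationSubring_liesOver 𝔭
  choose ℓf Af hℓf hℓmem hAf hAfp using hex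
  have hg : ∀ 𝔭 : HeightOneSpectrum (𝓞 K), ∃ g : M, g ≠ 0 ∧ ∀ A : ValuationSubring Qb,
      (primeUnder M A = primeUnder M (Af 𝔭) → IsU A ((g : Qb) / (bM : Qb) ^ h)) ∧
      (primeUnder M A ≠ primeUnder M (Af 𝔭) → IsU A (g : Qb)) :=
    fun 𝔭 => hgen bM hbM0 (Af 𝔭) (ℓf 𝔭) (hℓf 𝔭) (hAf 𝔭)
  choose gf hgf0 hgf using hg
  set Γ : Qb := ∏ 𝔭 ∈ T0, (gf 𝔭 : Qb) with hΓ
  set Rk : ValuationSubring Qb → Prop :=
    fun A => ∃ 𝔭 ∈ T0, primeUnder M A = primeUnder M (Af 𝔭) with hRk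
  -- the prime of `M` determines the prime of `K`
  have hdown : ∀ A A' : ValuationSubring Qb, primeUnder M A = primeUnder M A' →
      primeUnder K A = primeUnder K A' := by
    intro A A' hAA'
    ext x
    have hxint : IsIntegral ℤ (((x : K)) : Qb) := isIntegral_coe K x
    have hint : IsIntegral ℤ (⟨((x : K) : Qb), hKM (x : K).2⟩ : M) :=
      (isIntegral_algebraMap_iff (algebraMap M Qb).injective).mp hxint
    set y : 𝓞 M := ⟨⟨((x : K) : Qb), hKM (x : K).2⟩, hint⟩ with hy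
    have hyx : ((y : M) : Qb) = ((x : K) : Qb) := rfl
    rw [← mem_primeUnder_iff_of_coe_eq A K M x y hyx,
      ← mem_primeUnder_iff_of_coe_eq A' K M x y hyx, hAA']
  have hinj : ∀ 𝔭 𝔭' : HeightOneSpectrum (𝓞 K),
      primeUnder M (Af 𝔭) = primeUnder M (Af 𝔭') → 𝔭 = 𝔭' := by
    intro 𝔭 𝔭' heq
    have h1 := hdown _ _ heq
    rw [← hAfp 𝔭, ← hAfp 𝔭'] at h1
    exact HeightOneSpectrum.ext h1
  refine ⟨h, Γ, Rk, hh0, prod_mem (fun 𝔭 _ => (gf 𝔭).2), ?_, ?_, ?_, ?_⟩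
  · rw [hΓ, Finset.prod_ne_zero_iff]
    intro 𝔭 _ h0
    exact hgf0 𝔭 (Subtype.ext h0)
  · rintro A ⟨𝔭, h𝔭, hA𝔭⟩
    have h1 : Γ / (b : Qb) ^ h =
        (gf 𝔭 : Qb) / (bM : Qb) ^ h * ∏ 𝔭' ∈ T0.erase 𝔭, (gf 𝔭' : Qb) := by
      rw [hΓ, ← Finset.mul_prod_erase T0 _ h𝔭]
      ring
    rw [h1]
    refine ((hgf 𝔭 A).1 hA𝔭).mul (IsU.prod _ _ fun 𝔭' h𝔭' => (hgf 𝔭' A).2 ?_)
    intro heq
    exact (Finset.mem_erase.mp h𝔭').1 (hinj 𝔭 𝔭' (hA𝔭.symm.trans heq)).symm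
  · intro A hA
    exact IsU.prod _ _ fun 𝔭 h𝔭 => (hgf 𝔭 A).2 (fun heq => hA ⟨𝔭, h𝔭, heq⟩)
  · intro q hq A hA
    set 𝔭 : HeightOneSpectrum (𝓞 K) := placeUnder K A q.2 hA with h𝔭def
    have h𝔭A : 𝔭.asIdeal = primeUnder K A := rfl
    by_cases h𝔭 : 𝔭 ∈ T0
    · -- marked
      have hA𝔭K : primeUnder K (Af 𝔭) = primeUnder K A := (hAfp 𝔭).symm.trans h𝔭A
      have hqmem : (((q : ℕ) : ℕ) : 𝓞 K) ∈ 𝔭.asIdeal := by
        rw [h𝔭A]
        exact (natCast_mem_primeUnder_iff K A q).mpr hA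
      have hAfq : (Af 𝔭).LiesOverPrime (q : ℕ) := liesOverPrime_of_natCast_mem (hAfp 𝔭) hqmem
      obtain ⟨τ, hτK, hτ⟩ := exists_fixing_smul_eq K q.2 hAfq hA𝔭K
      have hχ0 : ∀ s ∈ (Af 𝔭).decompositionSubgroup ℚ, s ∈ K.fixingSubgroup → χ s = 0 := by
        rcases hloc q hq (Af 𝔭) hAfq with ⟨x, hx⟩ | h2
        · exfalso
          apply (Finset.mem_filter.mp h𝔭).2
          exact ⟨x, (valuation_eq_one_iff (hAfp 𝔭) (b * x ^ p)).mpr hx⟩
        · exact h2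
      have key : ∀ ρ ∈ K.fixingSubgroup, (Rk (ρ • Af 𝔭) ↔ χ ρ = 0) := by
        intro ρ hρ
        constructor
        · rintro ⟨𝔭', h𝔭', heq⟩
          have h1 : primeUnder K (ρ • Af 𝔭) = primeUnder K (Af 𝔭') := hdown _ _ heq
          rw [primeUnder_smul_of_mem_fixingSubgroup K (Af 𝔭) hρ, ← hAfp 𝔭, ← hAfp 𝔭'] at h1
          have h2 : 𝔭' = 𝔭 := HeightOneSpectrum.ext h1.symm
          subst h2
          obtain ⟨ρ', hρ'M, hρ'⟩ :=
            exists_fixing_smul_eq M q.2 (liesOverPrime_smul hAfq ρ) heq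
          have hρ'K : ρ' ∈ K.fixingSubgroup :=
            IntermediateField.fixingSubgroup_antitone hKM hρ'M
          have hdec : ρ' * ρ ∈ (Af 𝔭).decompositionSubgroup ℚ := by
            show (ρ' * ρ) • Af 𝔭 = Af 𝔭
            rw [mul_smul]
            exact hρ'
          have h3 := hχ0 _ hdec (mul_mem hρ'K hρ)
          rw [hχ ρ' hρ'K ρ hρ, (hker ρ' hρ'K).mpr hρ'M, zero_add] at h3
          exact h3
        · intro h0
          have hρM : ρ ∈ M.fixingSubgroup := (hker ρ hρ).mp h0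
          exact ⟨𝔭, h𝔭, primeUnder_smul_of_mem_fixingSubgroup M (Af 𝔭) hρM⟩
      refine Or.inl ⟨(χ τ).val, ZMod.val_lt _, fun i hi => ?_⟩
      have hρK : (σ ^ i)⁻¹ * τ ∈ K.fixingSubgroup :=
        mul_mem (inv_mem (pow_mem hσK i)) hτK
      have h1 : (σ ^ i)⁻¹ • A = ((σ ^ i)⁻¹ * τ) • Af 𝔭 := by rw [mul_smul, hτ]
      rw [h1, key _ hρK, hχ _ (inv_mem (pow_mem hσK i)) τ hτK,
        chi_inv K χ hχ (pow_mem hσK i), chi_pow K χ hχ hσK, hσχ, mul_one]
      constructor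
      · intro h2
        have h3 : (i : ZMod p) = χ τ := by linear_combination -h2
        have h4 := congrArg ZMod.val h3
        rw [ZMod.val_natCast_of_lt hi] at h4
        exact h4
      · intro h2
        rw [h2, ZMod.natCast_zmod_val]
        ring
    · -- unmarked
      have hx : ∃ x : K, 𝔭.valuation K (b * x ^ p) = 1 := by
        by_contra hno
        apply h𝔭
        rw [hT0, Finset.mem_filter]
        refine ⟨?_, hno⟩
        rw [Set.Finite.mem_toFinset]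
        intro hb1
        apply hno
        refine ⟨1, ?_⟩
        rw [one_pow, mul_one]
        exact hb1
      obtain ⟨x, hx⟩ := hx
      refine Or.inr ⟨fun τ hτ hR => ?_, x, (valuation_eq_one_iff h𝔭A (b * x ^ p)).mp hx⟩
      obtain ⟨𝔭', h𝔭', heq⟩ := hR
      have h1 := hdown _ _ heq
      rw [primeUnder_smul_of_mem_fixingSubgroup K A hτ, ← hAfp 𝔭', ← h𝔭A] at h1
      have h2 : 𝔭' = 𝔭 := HeightOneSpectrum.ext h1.symm
      exact h𝔭 (h2 ▸ h𝔭')

end Fermat.Agent.S55.Count.BrS.H125
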