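import Fermat.Agent.S55.Glue.PlacesAbove
import Fermat.Agent.S55.Abs.DevissageGQ
import Fermat.Agent.CFT.Kummer.Gen

/-!
# (BrS), arithmetic half: units of valuation subrings and the field of a character

`Qb = AlgebraicClosure ℚ`, `Gq = Gal(Qb/ℚ)`.

* `IsU A x` : `x` is a unit of the valuation subring `A` of `Qb`; stability under products,
  inverses, powers, roots, and transport `IsU (σ • A) x ↔ IsU A (σ⁻¹ x)`.
* `exists_field_of_char` : for a character `χ` of `G_K` of finite level with `χ ≠ 0` on `G_K`: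
  the field `M` of `χ` (`K ≤ M ≤ K ⊔ M₀`, `Fix M ∩ G_K = ker χ`) and `σ ∈ G_K` with `χ σ = 1`;
  every `τ ∈ G_K` acts on `M` as `σ ^ (χ τ).val` and preserves `M`.
-/

set_option autoImplicit false

open scoped Pointwise

namespace Fermat.Agent.S55.Count.BrS.H125

local notation "Qb" => AlgebraicClosure ℚ
local notation "Gq" => (AlgebraicClosure ℚ ≃ₐ[ℚ] AlgebraicClosure ℚ)

/-- `x` is a unit of the valuation subring `A`. -/
def IsU (A : ValuationSubring Qb) (x : Qb) : Prop := A.valuation x = 1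

namespace IsU

variable {A : ValuationSubring Qb} {x y : Qb}

theorem one : IsU A 1 := map_one _

theorem ne_zero (h : IsU A x) : x ≠ 0 := by
  rintro rfl
  unfold IsU at h
  rw [map_zero] at h
  exact zero_ne_one h

theorem mul (hx : IsU A x) (hy : IsU A y) : IsU A (x * y) := by
  unfold IsU at *
  rw [map_mul, hx, hy, one_mul]

theorem inv (hx : IsU A x) : IsU A x⁻¹ := by
  unfold IsU at *
  rw [map_inv₀, hx, inv_one]

theorem div (hx : IsU A x) (hy : IsU A y) : IsU A (x / y) := by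
  rw [div_eq_mul_inv]
  exact hx.mul hy.inv

theorem pow (hx : IsU A x) (n : ℕ) : IsU A (x ^ n) := by
  unfold IsU at *
  rw [map_pow, hx, one_pow]

theorem zpow (hx : IsU A x) (n : ℤ) : IsU A (x ^ n) := by
  unfold IsU at *
  rw [map_zpow₀, hx, one_zpow]

theorem prod {ι : Type*} (s : Finset ι) (f : ι → Qb) (h : ∀ i ∈ s, IsU A (f i)) :
    IsU A (∏ i ∈ s, f i) := by
  unfold IsU at *
  rw [map_prod]
  exact Finset.prod_eq_one h

/-- If `x ^ n` is a unit (`n ≠ 0`) then so is `x`. -/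
theorem of_pow {n : ℕ} (hn : n ≠ 0) (h : IsU A (x ^ n)) : IsU A x := by
  unfold IsU at *
  rw [map_pow] at h
  rcases lt_trichotomy (A.valuation x) 1 with h' | h' | h'
  · exact absurd h (pow_lt_one₀ zero_le h' hn).ne
  · exact h'
  · exact absurd h (one_lt_pow₀ h' hn).ne'

theorem congr (h : IsU A x) (hxy : x = y) : IsU A y := hxy ▸ h

end IsU

theorem isU_iff (A : ValuationSubring Qb) (x : Qb) : IsU A x ↔ x ∈ A ∧ x ∉ A.nonunits := by
  unfold IsU
  rw [A.mem_nonunits_iff, ← A.valuation_le_one_iff, not_lt]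
  exact ⟨fun h => ⟨h.le, h.ge⟩, fun h => le_antisymm h.1 h.2⟩

/-- Transport of units under the Galois action on valuation subrings. -/
theorem isU_smul_iff (A : ValuationSubring Qb) (σ : Gq) (x : Qb) :
    IsU (σ • A) x ↔ IsU A (σ⁻¹ x) := by
  rw [isU_iff, isU_iff, Glue.PlacesAbove.mem_nonunits_smul_iff,
    ValuationSubring.mem_pointwise_smul_iff_inv_smul_mem]
  rfl

theorem isU_smul_apply_iff (A : ValuationSubring Qb) (σ : Gq) (x : Qb) :
    IsU (σ • A) (σ x) ↔ IsU A x := by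
  rw [isU_smul_iff]
  have : σ⁻¹ (σ x) = x := AlgEquiv.symm_apply_apply σ x
  rw [this]

theorem isU_inv_smul_iff (A : ValuationSubring Qb) (σ : Gq) (x : Qb) :
    IsU (σ⁻¹ • A) x ↔ IsU A (σ x) := by
  rw [isU_smul_iff, inv_inv]

theorem apply_inv_apply (τ : Gq) (y : Qb) : τ (τ⁻¹ y) = y := by
  have h : (τ * τ⁻¹) y = y := by rw [mul_inv_cancel]; rfl
  exact h

theorem inv_apply_apply (τ : Gq) (y : Qb) : τ⁻¹ (τ y) = y := by
  have h : (τ⁻¹ * τ) y = y := by rw [inv_mul_cancel]; rfl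
  exact h

/-! ### The field of a character -/

section Char

variable {p : ℕ} [Fact p.Prime] (K : IntermediateField ℚ Qb) (χ : Gq → ZMod p)
  (hχ : ∀ g ∈ K.fixingSubgroup, ∀ h ∈ K.fixingSubgroup, χ (g * h) = χ g + χ h)

include hχ in
theorem chi_one : χ 1 = 0 := by
  have h := hχ 1 (one_mem _) 1 (one_mem _)
  rw [mul_one] at h
  have h2 : χ 1 + 0 = χ 1 + χ 1 := by rw [add_zero]; exact h
  exact (add_left_cancel h2).symm

include hχ in
theorem chi_inv {g : Gq} (hg : g ∈ K.fixingSubgroup) : χ g⁻¹ = -χ g := by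
  have h := hχ g hg g⁻¹ (inv_mem hg)
  rw [mul_inv_cancel, chi_one K χ hχ] at h
  exact eq_neg_of_add_eq_zero_right h.symm

include hχ in
theorem chi_pow {g : Gq} (hg : g ∈ K.fixingSubgroup) (n : ℕ) : χ (g ^ n) = n * χ g := by
  induction n with
  | zero => simp [chi_one K χ hχ]
  | succ n ih =>
    rw [pow_succ, hχ _ (pow_mem hg n) g hg, ih]
    push_cast
    ring

/-- The kernel of `χ` on `G_K`, as a subgroup of `Gq`. -/
def kerChar : Subgroup Gq where
  carrier := {s | s ∈ K.fixingSubgroup ∧ χ s = 0}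
  one_mem' := ⟨one_mem _, chi_one K χ hχ⟩
  mul_mem' := by
    rintro a b ⟨ha, ha0⟩ ⟨hb, hb0⟩
    exact ⟨mul_mem ha hb, by rw [hχ a ha b hb, ha0, hb0, add_zero]⟩
  inv_mem' := by
    rintro a ⟨ha, ha0⟩
    exact ⟨inv_mem ha, by rw [chi_inv K χ hχ ha, ha0, neg_zero]⟩

theorem mem_kerChar (s : Gq) : s ∈ kerChar K χ hχ ↔ s ∈ K.fixingSubgroup ∧ χ s = 0 := Iff.rfl

include hχ in
/-- **The field of a character.** -/
theorem exists_field_of_char (M₀ : IntermediateField ℚ Qb) [FiniteDimensional ℚ K]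
    [FiniteDimensional ℚ M₀]
    (hχM : ∀ g s, s ∈ M₀.fixingSubgroup → χ (g * s) = χ g)
    (s₀ : Gq) (hs₀ : s₀ ∈ K.fixingSubgroup) (hs₀χ : χ s₀ ≠ 0) :
    ∃ (M : IntermediateField ℚ Qb) (σ : Gq), K ≤ M ∧ M ≤ K ⊔ M₀ ∧ σ ∈ K.fixingSubgroup ∧
      χ σ = 1 ∧ (∀ τ ∈ K.fixingSubgroup, (χ τ = 0 ↔ τ ∈ M.fixingSubgroup)) ∧
      (∀ τ ∈ K.fixingSubgroup, ∀ x ∈ M, τ x ∈ M) ∧
      (∀ τ ∈ K.fixingSubgroup, ∀ x ∈ M, τ x = (σ ^ (χ τ).val) x) := by
  have hp : p.Prime := Fact.out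
  have : NeZero p := ⟨hp.ne_zero⟩
  set H : Subgroup Gq := kerChar K χ hχ with hH
  have hHK : H ≤ K.fixingSubgroup := fun s hs => hs.1
  have hFH : (K ⊔ M₀).fixingSubgroup ≤ H := by
    intro s hs
    rw [IntermediateField.fixingSubgroup_sup] at hs
    refine ⟨hs.1, ?_⟩
    have := hχM 1 s hs.2
    rw [one_mul, chi_one K χ hχ] at this
    exact this
  set M : IntermediateField ℚ Qb := IntermediateField.fixedField H with hM
  have hfix : M.fixingSubgroup = H := Abs.Devissage.fixingSubgroup_fixedField_of_le hFH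
  have hKM : K ≤ M := by
    intro x hx
    rw [hM, IntermediateField.mem_fixedField_iff]
    intro s hs
    exact (IntermediateField.mem_fixingSubgroup_iff K s).mp (hHK hs) x hx
  have hMle : M ≤ K ⊔ M₀ := Abs.Devissage.fixedField_le_of_le hFH
  -- the generator
  set n : ℕ := ((χ s₀)⁻¹).val with hn
  set σ : Gq := s₀ ^ n with hσ
  have hσK : σ ∈ K.fixingSubgroup := pow_mem hs₀ n
  have hσχ : χ σ = 1 := by
    rw [hσ, chi_pow K χ hχ hs₀, hn, ZMod.natCast_zmod_val, inv_mul_cancel₀ hs₀χ]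
  have hker : ∀ τ ∈ K.fixingSubgroup, (χ τ = 0 ↔ τ ∈ M.fixingSubgroup) := by
    intro τ hτ
    rw [hfix]
    exact ⟨fun h => ⟨hτ, h⟩, fun h => h.2⟩
  have hstab : ∀ τ ∈ K.fixingSubgroup, ∀ x ∈ M, τ x ∈ M := by
    intro τ hτ x hx
    rw [hM, IntermediateField.mem_fixedField_iff] at hx ⊢
    intro s hs
    have hconj : τ⁻¹ * s * τ ∈ H := by
      refine ⟨mul_mem (mul_mem (inv_mem hτ) hs.1) hτ, ?_⟩
      rw [hχ _ (mul_mem (inv_mem hτ) hs.1) τ hτ, hχ _ (inv_mem hτ) s hs.1, chi_inv K χ hχ hτ,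
        hs.2]
      ring
    have h1 := hx _ hconj
    have h2 : (τ⁻¹ * s * τ) x = τ⁻¹ (s (τ x)) := rfl
    rw [h2] at h1
    have h3 := congrArg τ h1
    rwa [apply_inv_apply] at h3
  refine ⟨M, σ, hKM, hMle, hσK, hσχ, hker, hstab, ?_⟩
  intro τ hτ x hx
  set j : ℕ := (χ τ).val with hj
  have hρ : (σ ^ j)⁻¹ * τ ∈ M.fixingSubgroup := by
    rw [← hker _ (mul_mem (inv_mem (pow_mem hσK j)) hτ),
      hχ _ (inv_mem (pow_mem hσK j)) τ hτ, chi_inv K χ hχ (pow_mem hσK j),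
      chi_pow K χ hχ hσK, hσχ, hj, ZMod.natCast_zmod_val]
    ring
  have h1 := (IntermediateField.mem_fixingSubgroup_iff M _).mp hρ x hx
  have h2 : ((σ ^ j)⁻¹ * τ) x = (σ ^ j)⁻¹ (τ x) := rfl
  rw [h2] at h1
  have h3 := congrArg (σ ^ j) h1
  rwa [apply_inv_apply] at h3

end Char

end Fermat.Agent.S55.Count.BrS.H125
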